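/-
S26 / PI-1 : a generically finite separable map of degree `d` has a fibre with `d` points.
-/
import Mathlib
import Fermat.Agent.S27.B.TensorDomain

set_option autoImplicit false

universe u

namespace Fermat.Agent.S26

open Polynomial IntermediateField

/-- polynomials with coefficients in a subalgebra lift to the subalgebra. -/
theorem ExtCount_exists_lift {B F : Type*} [CommRing B] [Field F] [Algebra B F]
    (R : Subalgebra B F) (p : F[X]) (hp : ∀ n, p.coeff n ∈ R) :
    ∃ q : R[X], q.map (algebraMap R F) = p := by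
  have h : p ∈ Polynomial.lifts (algebraMap R F) := by
    rw [Polynomial.lifts_iff_coeff_lifts]
    intro n
    exact ⟨⟨p.coeff n, hp n⟩, rfl⟩
  exact (Polynomial.mem_lifts p).mp h

/-- a primitive element lying in `B'`. -/
theorem ExtCount_exists_primitive (B B' F F' : Type*) [CommRing B] [IsDomain B] [CommRing B']
    [IsDomain B'] [Field F] [Algebra B F] [IsFractionRing B F] [Field F'] [Algebra B' F']
    [IsFractionRing B' F'] [Algebra F F'] [Algebra.IsSeparable F F'] [FiniteDimensional F F']
    (ν : B →+* B') (hν : ∀ b, algebraMap F F' (algebraMap B F b) = algebraMap B' F' (ν b)) :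
    ∃ θ₀ : B', F⟮algebraMap B' F' θ₀⟯ = ⊤ := by
  let _ : Algebra B B' := ν.toAlgebra
  let _ : Algebra B F' := ((algebraMap B' F').comp ν).toAlgebra
  have : IsScalarTower B B' F' := IsScalarTower.of_algebraMap_eq (fun _ => rfl)
  have : IsScalarTower B F F' := IsScalarTower.of_algebraMap_eq (fun b => (hν b).symm)
  obtain ⟨θ', hθ'⟩ := Field.exists_primitive_element F F'
  obtain ⟨x, y, hy, hxy⟩ := IsFractionRing.div_surjective (A := B') θ'
  have hyalg : IsAlgebraic B y := by
    have h1 : IsAlgebraic F (algebraMap B' F' y) := Algebra.IsAlgebraic.isAlgebraic _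
    have h2 : IsAlgebraic B (algebraMap B' F' y) := (IsFractionRing.isAlgebraic_iff B F F').mpr h1
    exact (isAlgebraic_algebraMap_iff (IsFractionRing.injective B' F')).mp h2
  obtain ⟨r, hr0, z, hz⟩ := hyalg.exists_nonzero_dvd hy
  have hz' : ν r = y * z := hz
  refine ⟨x * z, ?_⟩
  rw [eq_top_iff, ← hθ', adjoin_simple_le_iff]
  have hr' : algebraMap F F' (algebraMap B F r) ≠ 0 := by
    rw [Ne, map_eq_zero, map_eq_zero_iff _ (IsFractionRing.injective B F)]
    exact hr0
  have hyz : algebraMap B' F' y * algebraMap B' F' z ≠ 0 := by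
    rw [← map_mul, ← hz', ← hν]
    exact hr'
  have e : θ' = algebraMap B' F' (x * z) / algebraMap F F' (algebraMap B F r) := by
    rw [hν, hz', ← hxy, map_mul, map_mul]
    have h1 := left_ne_zero_of_mul hyz
    have h2 := right_ne_zero_of_mul hyz
    field_simp
  rw [e]
  exact div_mem (mem_adjoin_simple_self F _) (IntermediateField.algebraMap_mem _ _)

/-- the core statement, with `F'` an `F`-algebra. -/
theorem ExtCount_core (K : Type u) [Field K] [IsAlgClosed K] (B B' F F' : Type u)
    [CommRing B] [IsDomain B] [Algebra K B] [Algebra.FiniteType K B]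
    [CommRing B'] [IsDomain B'] [Algebra K B'] [Algebra.FiniteType K B']
    [Field F] [Algebra B F] [IsFractionRing B F] [Field F'] [Algebra B' F'] [IsFractionRing B' F']
    [Algebra F F'] [Algebra.IsSeparable F F'] [FiniteDimensional F F']
    (ν : B →ₐ[K] B') (hν : ∀ b, algebraMap F F' (algebraMap B F b) = algebraMap B' F' (ν b)) :
    ∃ (b : B →ₐ[K] K) (s : Finset (B' →ₐ[K] K)), s.card = Module.finrank F F' ∧
      ∀ b' ∈ s, b'.comp ν = b := by
  classical
  -- (1) a primitive element
  obtain ⟨θ₀, hθ₀⟩ := ExtCount_exists_primitive B B' F F' (ν : B →+* B') hν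
  set θ : F' := algebraMap B' F' θ₀ with hθ
  have hθint : IsIntegral F θ := Algebra.IsIntegral.isIntegral θ
  -- (2) its minimal polynomial
  set m : F[X] := minpoly F θ with hm
  have hmmonic : m.Monic := minpoly.monic hθint
  have hmdeg : m.natDegree = Module.finrank F F' :=
    (Field.primitive_element_iff_minpoly_natDegree_eq F θ).mp hθ₀
  obtain ⟨a, a', haa'⟩ : IsCoprime m (derivative m) := Algebra.IsSeparable.isSeparable F θ
  -- (3) every element of `F'` is a polynomial in `θ`
  have hpoly : ∀ x : F', ∃ p : F[X], aeval θ p = x := by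
    intro x
    have h1 : x ∈ F⟮θ⟯.toSubalgebra := by rw [hθ₀]; trivial
    rw [adjoin_simple_toSubalgebra_of_isAlgebraic hθint.isAlgebraic,
      Algebra.adjoin_singleton_eq_range_aeval] at h1
    exact h1
  choose P hP using hpoly
  obtain ⟨G, hG⟩ := (Algebra.FiniteType.out : (⊤ : Subalgebra K B').FG)
  -- (4) the finitely generated `B`-algebra `R ⊆ F`
  set T : Finset F := m.coeffs ∪ a.coeffs ∪ a'.coeffs ∪
    G.biUnion (fun g => (P (algebraMap B' F' g)).coeffs) with hT
  set R : Subalgebra B F := Algebra.adjoin B (T : Set F) with hR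
  have hcoeff : ∀ p : F[X], p.coeffs ⊆ T → ∀ n, p.coeff n ∈ R := by
    intro p hp n
    by_cases h0 : p.coeff n = 0
    · rw [h0]; exact R.zero_mem
    · exact Algebra.subset_adjoin (Finset.mem_coe.mpr (hp (coeff_mem_coeffs h0)))
  have hinj : Function.Injective (algebraMap R F) := Subtype.val_injective
  obtain ⟨mR, hmR⟩ := ExtCount_exists_lift R m (hcoeff m (by
    intro x hx; simp only [hT, Finset.mem_union]; exact Or.inl (Or.inl (Or.inl hx))))
  obtain ⟨aR, haR⟩ := ExtCount_exists_lift R a (hcoeff a (by
    intro x hx; simp only [hT, Finset.mem_union]; exact Or.inl (Or.inl (Or.inr hx))))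
  obtain ⟨aR', haR'⟩ := ExtCount_exists_lift R a' (hcoeff a' (by
    intro x hx; simp only [hT, Finset.mem_union]; exact Or.inl (Or.inr hx)))
  have hPR : ∀ g ∈ G, ∃ q : R[X], q.map (algebraMap R F) = P (algebraMap B' F' g) := by
    intro g hg
    refine ExtCount_exists_lift R _ (hcoeff _ ?_)
    intro x hx
    simp only [hT, Finset.mem_union]
    exact Or.inr (Finset.mem_biUnion.mpr ⟨g, hg, hx⟩)
  have hmRmonic : mR.Monic := monic_of_injective hinj (by rw [hmR]; exact hmmonic)
  have hmRdeg : mR.natDegree = Module.finrank F F' := by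
    rw [← hmdeg, ← hmR, natDegree_map_eq_of_injective hinj]
  have hmRsep : mR.Separable := by
    refine ⟨aR, aR', map_injective _ hinj ?_⟩
    rw [Polynomial.map_add, Polynomial.map_mul, Polynomial.map_mul, ← derivative_map, haR, haR', hmR,
      Polynomial.map_one]
    exact haa'
  -- `R` is a finitely generated `K`-algebra
  let _ : Algebra K R := ((algebraMap B R).comp (algebraMap K B)).toAlgebra
  have : IsScalarTower K B R := IsScalarTower.of_algebraMap_eq (fun _ => rfl)
  have hftBR : Algebra.FiniteType B R :=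
    (Subalgebra.fg_iff_finiteType R).mp (Subalgebra.fg_adjoin_finset T)
  have hftKR : Algebra.FiniteType K R := Algebra.FiniteType.trans (S := B) inferInstance hftBR
  -- (5) a `K`-point of `R`
  obtain ⟨b₀⟩ := Fermat.Agent.S27.td_exists_algHom K R
  set mb : K[X] := mR.map (b₀ : R →+* K) with hmb
  have hmbdeg : mb.natDegree = Module.finrank F F' := by
    rw [hmb, hmRmonic.natDegree_map, hmRdeg]
  have hmbsep : mb.Separable := hmRsep.map
  have hmb0 : mb ≠ 0 := (hmRmonic.map _).ne_zero
  have hcard : mb.roots.toFinset.card = Module.finrank F F' := by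
    rw [Multiset.toFinset_card_of_nodup (nodup_roots hmbsep), ← hmbdeg]
    exact (splits_iff_card_roots).mp (IsAlgClosed.splits mb)
  -- (6) evaluation at `θ`
  let ιR : R →+* F' := (algebraMap F F').comp (algebraMap R F)
  let evR : R[X] →+* F' := eval₂RingHom ιR θ
  have hevR : ∀ p : R[X], evR p = aeval θ (p.map (algebraMap R F)) := by
    intro p
    rw [aeval_def, eval₂_map]
    rfl
  have hker : ∀ p : R[X], evR p = 0 → mR ∣ p := by
    intro p hp
    rw [hevR] at hp
    have h1 := minpoly.dvd F θ hp
    rw [← hm, ← hmR] at h1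
    exact (map_dvd_map _ hinj hmRmonic).mp h1
  -- the image of `B'` lies in the range of `evR`
  have hνev : ∀ β : B, algebraMap B' F' (ν β) = evR (C (algebraMap B R β)) := by
    intro β
    rw [← hν]
    show _ = eval₂ ιR θ (C (algebraMap B R β))
    rw [eval₂_C]
    rfl
  have hrange : ∀ x : B', algebraMap B' F' x ∈ evR.range := by
    intro x
    have hx : x ∈ Algebra.adjoin K (G : Set B') := by rw [hG]; trivial
    induction hx using Algebra.adjoin_induction with
    | mem g hg =>
      obtain ⟨q, hq⟩ := hPR g hg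
      exact ⟨q, by rw [hevR, hq, hP]⟩
    | algebraMap k =>
      refine ⟨C (algebraMap B R (algebraMap K B k)), ?_⟩
      rw [← hνev, ν.commutes]
    | add x y _ _ hx hy => rw [map_add]; exact add_mem hx hy
    | mul x y _ _ hx hy => rw [map_mul]; exact mul_mem hx hy
  let κ : B' →+* evR.range := (algebraMap B' F').codRestrict evR.range hrange
  -- (7) the points
  have hpts : ∀ ρ ∈ mb.roots.toFinset, ∃ φ : B' →ₐ[K] K, φ θ₀ = ρ ∧
      ∀ β : B, φ (ν β) = b₀ (algebraMap B R β) := by
    intro ρ hρ
    have hρ' : mb.IsRoot ρ := by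
      rw [Multiset.mem_toFinset, mem_roots hmb0] at hρ
      exact hρ
    let ψ : R[X] →+* K := eval₂RingHom (b₀ : R →+* K) ρ
    have hψm : ψ mR = 0 := by
      show eval₂ (b₀ : R →+* K) ρ mR = 0
      rw [eval₂_eq_eval_map]
      exact hρ'
    have hle : RingHom.ker evR.rangeRestrict ≤ RingHom.ker ψ := by
      intro p hp
      rw [RingHom.mem_ker] at hp ⊢
      have hp' : evR p = 0 := congrArg Subtype.val hp
      obtain ⟨q, rfl⟩ := hker p hp'
      rw [map_mul, hψm, zero_mul]
    let χ : evR.range →+* K :=
      evR.rangeRestrict.liftOfSurjective evR.rangeRestrict_surjective ⟨ψ, hle⟩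
    have hχ : ∀ p : R[X], χ (evR.rangeRestrict p) = ψ p := fun p =>
      RingHom.liftOfRightInverse_comp_apply _ _ _ ⟨ψ, hle⟩ p
    have hφ : ∀ (x : B') (p : R[X]), evR p = algebraMap B' F' x → χ (κ x) = ψ p := by
      intro x p hp
      rw [← hχ]
      congr 1
      exact Subtype.ext hp.symm
    have hφν : ∀ β : B, χ (κ (ν β)) = b₀ (algebraMap B R β) := by
      intro β
      rw [hφ (ν β) (C (algebraMap B R β)) (hνev β).symm]
      show eval₂ (b₀ : R →+* K) ρ (C (algebraMap B R β)) = _
      rw [eval₂_C]
      rfl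
    refine ⟨{ (χ.comp κ) with
      commutes' := fun k => ?_ }, ?_, hφν⟩
    · show χ (κ (algebraMap K B' k)) = algebraMap K K k
      rw [← ν.commutes, hφν, ← IsScalarTower.algebraMap_apply K B R, b₀.commutes]
    · show χ (κ θ₀) = ρ
      rw [hφ θ₀ X (by show eval₂ ιR θ X = _; rw [eval₂_X])]
      show eval₂ (b₀ : R →+* K) ρ X = ρ
      rw [eval₂_X]
  choose φ hφ1 hφ2 using hpts
  refine ⟨b₀.comp (IsScalarTower.toAlgHom K B R),
    mb.roots.toFinset.attach.image (fun ρ => φ ρ.1 ρ.2), ?_, ?_⟩
  · rw [Finset.card_image_of_injective, Finset.card_attach, hcard]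
    intro ρ ρ' h
    apply Subtype.ext
    rw [← hφ1 ρ.1 ρ.2, ← hφ1 ρ'.1 ρ'.2]
    exact congrArg (fun f : B' →ₐ[K] K => f θ₀) h
  · intro b' hb'
    obtain ⟨ρ, -, rfl⟩ := Finset.mem_image.mp hb'
    ext β
    exact hφ2 ρ.1 ρ.2 β

/-- **PI-1.**  A dominant, generically finite separable map of affine varieties over an
algebraically closed field has a point whose fibre has exactly `[F' : j F]` points (we only need
that many points in the fibre). -/
theorem exists_point_many_extensions (K : Type u) [Field K] [IsAlgClosed K] (B B' F F' : Type u)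
    [CommRing B] [IsDomain B] [Algebra K B] [Algebra.FiniteType K B]
    [CommRing B'] [IsDomain B'] [Algebra K B'] [Algebra.FiniteType K B']
    [Field F] [Algebra B F] [IsFractionRing B F] [Field F'] [Algebra B' F'] [IsFractionRing B' F']
    (ν : B →ₐ[K] B') (j : F →+* F') (hj : ∀ b, j (algebraMap B F b) = algebraMap B' F' (ν b))
    [Algebra.IsSeparable j.fieldRange F'] [FiniteDimensional j.fieldRange F'] :
    ∃ (b : B →ₐ[K] K) (s : Finset (B' →ₐ[K] K)), s.card = Module.finrank j.fieldRange F' ∧
      ∀ b' ∈ s, b'.comp ν = b := by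
  let _ : Algebra F F' := j.toAlgebra
  let e : F ≃+* j.fieldRange := j.rangeRestrictFieldEquiv
  have hc : (algebraMap j.fieldRange F').comp e.toRingHom =
      (RingEquiv.refl F').toRingHom.comp (algebraMap F F') := by
    ext x
    rfl
  have he : (algebraMap F F').comp (e.symm : j.fieldRange →+* F) =
      ((RingEquiv.refl F' : F' ≃+* F') : F' →+* F').comp (algebraMap j.fieldRange F') := by
    ext x
    obtain ⟨y, rfl⟩ := e.surjective x
    have := congrArg (fun f : F →+* F' => f y) hc
    simpa using this.symm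
  have hsep : Algebra.IsSeparable F F' :=
    Algebra.IsSeparable.of_equiv_equiv e.symm (RingEquiv.refl F') he
  have hfin : FiniteDimensional F F' :=
    Module.Finite.of_equiv_equiv e.symm (RingEquiv.refl F') he
  have hrank : Module.finrank F F' = Module.finrank j.fieldRange F' :=
    Algebra.finrank_eq_of_equiv_equiv e (RingEquiv.refl F') hc
  rw [← hrank]
  exact ExtCount_core K B B' F F' ν hj

end Fermat.Agent.S26
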