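/-
S26 / PI / Le : `#A[n](K) ≤ [K(A) : n^* K(A)]` (translations by `n`-torsion points are automorphisms of
`K(A)` over `n^* K(A)`).   Self-contained (the three facts on generic points are reproved here with
prefixed names, so that this file does not depend on `AV/DG1.lean`).
-/
import Fermat.Agent.S26.AV.Deg
import Fermat.Agent.S26.AV.Geo

set_option autoImplicit false
set_option linter.unusedSectionVars false

open scoped TensorProduct

universe u

namespace Fermat.Agent.S26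

variable {K : Type u} [Field K] [IsAlgClosed K] {𝔸 : AVF K} {g : ℕ}

/-- `𝔸.map φ` as an additive homomorphism -/
def Le_mapHom (𝔸 : AVF K) {S S' : Type u} [CommRing S] [Algebra K S] [CommRing S'] [Algebra K S']
    (φ : S →ₐ[K] S') : 𝔸.pt S →+ 𝔸.pt S' :=
  AddMonoidHom.mk' (𝔸.map φ) (𝔸.map_add φ)

theorem Le_map_nsmul (𝔸 : AVF K) {S S' : Type u} [CommRing S] [Algebra K S] [CommRing S']
    [Algebra K S'] (φ : S →ₐ[K] S') (n : ℕ) (a : 𝔸.pt S) : 𝔸.map φ (n • a) = n • 𝔸.map φ a :=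
  map_nsmul (Le_mapHom 𝔸 φ) n a

theorem Le_map_zero (𝔸 : AVF K) {S S' : Type u} [CommRing S] [Algebra K S] [CommRing S']
    [Algebra K S'] (φ : S →ₐ[K] S') : 𝔸.map φ (0 : 𝔸.pt S) = 0 :=
  map_zero (Le_mapHom 𝔸 φ)

/-- naturality of constant points -/
theorem Le_map_cst (𝔸 : AVF K) {S S' : Type u} [CommRing S] [Algebra K S] [CommRing S']
    [Algebra K S'] (φ : S →ₐ[K] S') (a : 𝔸.pt K) : 𝔸.map φ (𝔸.cst S a) = 𝔸.cst S' a := by
  unfold AVF.cst
  rw [← 𝔸.map_comp]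
  congr 1
  exact AlgHom.ext fun x => by simp [Algebra.ofId_apply]

theorem Le_η_ext (G : Geo 𝔸 g) {Φ : Type u} [Field Φ] [Algebra K Φ] (j j' : G.FF →ₐ[K] Φ)
    (h : 𝔸.map j G.η = 𝔸.map j' G.η) : j = j' := by
  unfold Geo.η at h
  rw [← 𝔸.map_comp, ← 𝔸.map_comp] at h
  have h1 := G.mono _ _ h
  have h2 : (j : G.FF →+* Φ) = (j' : G.FF →+* Φ) := by
    apply IsLocalization.ringHom_ext (nonZeroDivisors G.R₀)
    exact RingHom.ext fun x => congrArg (fun f : G.R₀ →ₐ[K] Φ => f x) h1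
  exact AlgHom.ext fun x => congrArg (fun f : G.FF →+* Φ => f x) h2

theorem Le_exists_trans (G : Geo 𝔸 g) (a : 𝔸.pt K) : ∃ τ : G.FF →ₐ[K] G.FF,
    𝔸.map τ G.η = G.η + 𝔸.cst G.FF a := by
  obtain ⟨j, hj, hja⟩ := G.gen_trans a
  refine ⟨IsFractionRing.liftAlgHom (K := G.FF) hj, ?_⟩
  have h1 : (IsFractionRing.liftAlgHom (K := G.FF) hj).comp
      (IsScalarTower.toAlgHom K G.R₀ G.FF) = j := by
    refine AlgHom.ext fun x => ?_
    simp
  unfold Geo.η
  rw [← 𝔸.map_comp, h1, hja]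

theorem Le_cst_injective (G : Geo 𝔸 g) : Function.Injective (𝔸.cst G.FF) := by
  intro a b hab
  rw [← Le_map_cst 𝔸 (IsScalarTower.toAlgHom K G.R₀ G.FF) a,
    ← Le_map_cst 𝔸 (IsScalarTower.toAlgHom K G.R₀ G.FF) b] at hab
  have h1 := G.sep G.R₀ G.FF hab
  have h2 := congrArg (𝔸.map G.ε₀) h1
  rw [Le_map_cst, Le_map_cst] at h2
  have h3 : ∀ c : 𝔸.pt K, 𝔸.cst K c = c := by
    intro c
    unfold AVF.cst
    have : Algebra.ofId K K = AlgHom.id K K := AlgHom.ext fun x => rfl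
    rw [this, 𝔸.map_id]
  rwa [h3, h3] at h2

theorem card_torsion_le (G : Geo 𝔸 g) (n : ℕ) (ν : G.FF →ₐ[K] G.FF)
    (hν : 𝔸.map ν G.η = n • G.η) [FiniteDimensional ν.fieldRange G.FF] :
    Finite {a : 𝔸.pt K // n • a = 0} ∧
      Nat.card {a : 𝔸.pt K // n • a = 0} ≤ Module.finrank ν.fieldRange G.FF := by
  choose τ hτ using Le_exists_trans G
  have hfix : ∀ a : 𝔸.pt K, n • a = 0 → (τ a).comp ν = ν := by
    intro a ha
    apply Le_η_ext G
    rw [𝔸.map_comp, hν, Le_map_nsmul, hτ, smul_add]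
    have h1 : n • 𝔸.cst G.FF a = 0 := by
      unfold AVF.cst
      rw [← Le_map_nsmul, ha, Le_map_zero]
    rw [h1, add_zero]
  let σ : {a : 𝔸.pt K // n • a = 0} → (G.FF →ₐ[ν.fieldRange] G.FF) := fun a =>
    { (τ a.1 : G.FF →+* G.FF) with
      commutes' := by
        rintro ⟨x, y, rfl⟩
        exact congrArg (fun f : G.FF →ₐ[K] G.FF => f y) (hfix a.1 a.2) }
  have hσ : Function.Injective σ := by
    intro a b hab
    apply Subtype.ext
    apply Le_cst_injective G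
    have h1 : τ a.1 = τ b.1 := by
      refine AlgHom.ext fun x => ?_
      exact congrArg (fun f : G.FF →ₐ[ν.fieldRange] G.FF => f x) hab
    have h2 := hτ a.1
    rw [h1, hτ b.1] at h2
    exact (add_left_cancel h2).symm
  have hfin : Finite (G.FF →ₐ[ν.fieldRange] G.FF) := inferInstance
  refine ⟨Finite.of_injective σ hσ, ?_⟩
  exact (Nat.card_le_card_of_injective σ hσ).trans (card_algHom_le_finrank _ _ _)

end Fermat.Agent.S26
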