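import Mathlib

/-!
# S26 / PI-2 : a finite extension of degree prime to the characteristic is separable
-/

set_option autoImplicit false

namespace Fermat.Agent.S26

theorem isSeparable_of_finrank_ne_zero {E F : Type*} [Field E] [Field F] [Algebra E F]
    (h : (Module.finrank E F : F) ≠ 0) : Algebra.IsSeparable E F := by
  have h0 : Module.finrank E F ≠ 0 := by
    intro h0
    rw [h0, Nat.cast_zero] at h
    exact h rfl
  have hfd : FiniteDimensional E F := Module.finite_of_finrank_pos (Nat.pos_of_ne_zero h0)
  obtain ⟨q, hq⟩ := ExpChar.exists E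
  have hqF : ExpChar F q := expChar_of_injective_algebraMap (algebraMap E F).injective q
  obtain ⟨n, hn⟩ := finInsepDegree_eq_pow E F q
  have hmul := Field.finSepDegree_mul_finInsepDegree E F
  rw [isSeparable_iff_finInsepDegree_eq_one]
  rcases Nat.eq_zero_or_pos n with rfl | hpos
  · rw [hn, pow_zero]
  · rcases hqF with _ | ⟨hprime⟩
    · rw [hn, one_pow]
    · exfalso
      apply h
      rw [← hmul, hn, Nat.cast_mul, Nat.cast_pow, CharP.cast_eq_zero F q, zero_pow hpos.ne',
        mul_zero]

end Fermat.Agent.S26
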