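/-
S26 / PI / Ge (PI-4) : `[K(A) : n^* K(A)] ≤ #A[n](K)` in the separable case, and `card_torsion_of_deg`.
-/
import Fermat.Agent.S26.AV.Deg
import Fermat.Agent.S26.PI.ExtCount
import Fermat.Agent.S26.PI.Sep
import Fermat.Agent.S26.PI.Le

set_option autoImplicit false

open scoped TensorProduct

universe u

namespace Fermat.Agent.S26

variable {K : Type u} [Field K] [IsAlgClosed K] {𝔸 : AVF K} {g : ℕ}

/-- the core of the argument, for an abstract "localisation" `B'` of `R₀` through which `ν` factors -/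
private theorem ge_core (G : Geo 𝔸 g) (n : ℕ) (ν : G.FF →ₐ[K] G.FF)
    (hν : 𝔸.map ν G.η = n • G.η) [FiniteDimensional ν.fieldRange G.FF]
    [Algebra.IsSeparable ν.fieldRange G.FF] (hfin : Finite {a : 𝔸.pt K // n • a = 0})
    (B' : Type u) [CommRing B'] [IsDomain B'] [Algebra K B'] [Algebra.FiniteType K B']
    [Algebra G.R₀ B'] [IsScalarTower K G.R₀ B'] [Algebra B' G.FF] [IsScalarTower G.R₀ B' G.FF]
    [IsScalarTower K B' G.FF] [IsFractionRing B' G.FF]
    (hepi : ∀ f f' : B' →ₐ[K] K, f.comp (IsScalarTower.toAlgHom K G.R₀ B') =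
      f'.comp (IsScalarTower.toAlgHom K G.R₀ B') → f = f')
    (ν₀ : G.R₀ →ₐ[K] B') (hν₀ : ∀ x, algebraMap B' G.FF (ν₀ x) = ν (algebraMap G.R₀ G.FF x)) :
    Module.finrank ν.fieldRange G.FF ≤ Nat.card {a : 𝔸.pt K // n • a = 0} := by
  classical
  have h1 : Algebra.IsSeparable (ν : G.FF →+* G.FF).fieldRange G.FF :=
    ‹Algebra.IsSeparable ν.fieldRange G.FF›
  have h2 : FiniteDimensional (ν : G.FF →+* G.FF).fieldRange G.FF :=
    ‹FiniteDimensional ν.fieldRange G.FF›
  obtain ⟨b, S, hS, hb⟩ := exists_point_many_extensions K G.R₀ B' G.FF G.FF ν₀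
    (ν : G.FF →+* G.FF) (fun x => (hν₀ x).symm)
  have hS' : S.card = Module.finrank ν.fieldRange G.FF := hS
  rw [← hS']
  -- the key identity in `𝔸(B')`
  have hkey : n • 𝔸.map (IsScalarTower.toAlgHom K G.R₀ B') G.ι₀ = 𝔸.map ν₀ G.ι₀ := by
    apply G.sep B' G.FF
    rw [𝔸.map_nsmul, ← 𝔸.map_comp, ← 𝔸.map_comp]
    have e1 : (IsScalarTower.toAlgHom K B' G.FF).comp (IsScalarTower.toAlgHom K G.R₀ B') =
        IsScalarTower.toAlgHom K G.R₀ G.FF := by
      ext x
      exact (IsScalarTower.algebraMap_apply G.R₀ B' G.FF x).symm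
    have e2 : (IsScalarTower.toAlgHom K B' G.FF).comp ν₀ =
        ν.comp (IsScalarTower.toAlgHom K G.R₀ G.FF) := by
      ext x
      exact hν₀ x
    rw [e1, e2, 𝔸.map_comp]
    exact hν.symm
  -- the points `a (b')`
  set a : (B' →ₐ[K] K) → 𝔸.pt K :=
    fun b' => 𝔸.map (b'.comp (IsScalarTower.toAlgHom K G.R₀ B')) G.ι₀ with ha
  have ha_inj : Function.Injective a := fun f f' h => hepi f f' (G.mono _ _ h)
  have ha_n : ∀ b' ∈ S, n • a b' = 𝔸.map b G.ι₀ := by
    intro b' hb'
    rw [ha]
    simp only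
    rw [𝔸.map_comp, ← 𝔸.map_nsmul, hkey, ← 𝔸.map_comp, hb b' hb']
  rcases S.eq_empty_or_nonempty with rfl | ⟨b₁, hb₁⟩
  · simp
  · have hmem : ∀ b' : S, n • (a b'.1 - a b₁) = 0 := by
      intro b'
      rw [smul_sub, ha_n b'.1 b'.2, ha_n b₁ hb₁, sub_self]
    have hinj : Function.Injective
        (fun b' : S => (⟨a b'.1 - a b₁, hmem b'⟩ : {a : 𝔸.pt K // n • a = 0})) := by
      intro f f' h
      have h3 : a f.1 - a b₁ = a f'.1 - a b₁ := congrArg Subtype.val h
      exact Subtype.ext (ha_inj (sub_left_injective h3))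
    have h4 := Nat.card_le_card_of_injective _ hinj
    rwa [Nat.card_eq_fintype_card, Fintype.card_coe] at h4

theorem le_card_torsion (G : Geo 𝔸 g) (n : ℕ) (ν : G.FF →ₐ[K] G.FF)
    (hν : 𝔸.map ν G.η = n • G.η) [FiniteDimensional ν.fieldRange G.FF]
    [Algebra.IsSeparable ν.fieldRange G.FF] (hfin : Finite {a : 𝔸.pt K // n • a = 0}) :
    Module.finrank ν.fieldRange G.FF ≤ Nat.card {a : 𝔸.pt K // n • a = 0} := by
  classical
  obtain ⟨T, hT⟩ := (Algebra.FiniteType.out : (⊤ : Subalgebra K G.R₀).FG)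
  obtain ⟨s, hs⟩ := IsLocalization.exist_integer_multiples_of_finset (nonZeroDivisors G.R₀)
    (T.image (fun x => ν (algebraMap G.R₀ G.FF x)))
  have hle : Submonoid.powers (s : G.R₀) ≤ nonZeroDivisors G.R₀ := Submonoid.powers_le.2 s.2
  have hs0 : algebraMap G.R₀ G.FF (s : G.R₀) ≠ 0 :=
    IsFractionRing.to_map_ne_zero_of_mem_nonZeroDivisors s.2
  let : Algebra (Localization.Away (s : G.R₀)) G.FF :=
    IsLocalization.localizationAlgebraOfSubmonoidLe (Localization.Away (s : G.R₀)) G.FF
      (Submonoid.powers (s : G.R₀)) (nonZeroDivisors G.R₀) hle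
  have : IsScalarTower G.R₀ (Localization.Away (s : G.R₀)) G.FF :=
    IsLocalization.localization_isScalarTower_of_submonoid_le (Localization.Away (s : G.R₀)) G.FF
      (Submonoid.powers (s : G.R₀)) (nonZeroDivisors G.R₀) hle
  have : IsScalarTower K (Localization.Away (s : G.R₀)) G.FF :=
    IsScalarTower.of_algebraMap_eq fun c => by
      rw [IsScalarTower.algebraMap_apply K G.R₀ (Localization.Away (s : G.R₀)),
        ← IsScalarTower.algebraMap_apply G.R₀ (Localization.Away (s : G.R₀)) G.FF,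
        ← IsScalarTower.algebraMap_apply K G.R₀ G.FF]
  have : IsDomain (Localization.Away (s : G.R₀)) := IsLocalization.isDomain_localization hle
  have : IsFractionRing (Localization.Away (s : G.R₀)) G.FF :=
    IsFractionRing.isFractionRing_of_isDomain_of_isLocalization (Submonoid.powers (s : G.R₀))
      (Localization.Away (s : G.R₀)) G.FF
  have hinj : Function.Injective (IsScalarTower.toAlgHom K (Localization.Away (s : G.R₀)) G.FF) :=
    IsFractionRing.injective (Localization.Away (s : G.R₀)) G.FF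
  -- `ν (R₀)` is contained in the image of the localisation
  have hrange : ∀ x : G.R₀, (ν.comp (IsScalarTower.toAlgHom K G.R₀ G.FF)) x ∈
      (IsScalarTower.toAlgHom K (Localization.Away (s : G.R₀)) G.FF).range := by
    have h1 : Algebra.adjoin K (T : Set G.R₀) ≤
        (IsScalarTower.toAlgHom K (Localization.Away (s : G.R₀)) G.FF).range.comap
          (ν.comp (IsScalarTower.toAlgHom K G.R₀ G.FF)) := by
      rw [Algebra.adjoin_le_iff]
      intro x hx
      obtain ⟨c, hc⟩ := hs _ (Finset.mem_image_of_mem _ hx)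
      refine ⟨IsLocalization.mk' (Localization.Away (s : G.R₀)) c
        (⟨(s : G.R₀), Submonoid.mem_powers _⟩ : Submonoid.powers (s : G.R₀)), ?_⟩
      have h2 := congrArg (algebraMap (Localization.Away (s : G.R₀)) G.FF)
        (IsLocalization.mk'_spec (Localization.Away (s : G.R₀)) c
          (⟨(s : G.R₀), Submonoid.mem_powers _⟩ : Submonoid.powers (s : G.R₀)))
      rw [map_mul, ← IsScalarTower.algebraMap_apply, ← IsScalarTower.algebraMap_apply, hc,
        Algebra.smul_def, mul_comm] at h2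
      exact mul_left_cancel₀ hs0 h2
    intro x
    exact h1 (hT ▸ Algebra.mem_top)
  refine ge_core G n ν hν hfin (Localization.Away (s : G.R₀)) ?_
    (((AlgEquiv.ofInjective _ hinj).symm : _ →ₐ[K] Localization.Away (s : G.R₀)).comp
      ((ν.comp (IsScalarTower.toAlgHom K G.R₀ G.FF)).codRestrict _ hrange)) ?_
  · intro f f' h
    exact IsLocalization.algHom_ext (Submonoid.powers (s : G.R₀)) h
  · intro x
    have h3 := AlgEquiv.apply_symm_apply (AlgEquiv.ofInjective _ hinj)
      ((ν.comp (IsScalarTower.toAlgHom K G.R₀ G.FF)).codRestrict _ hrange x)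
    exact congrArg Subtype.val h3

theorem card_torsion_of_deg (G : Geo 𝔸 g) (n d : ℕ) (hd : G.deg (n • G.η) = d) (hd0 : (d : K) ≠ 0) :
    Nat.card {a : 𝔸.pt K // n • a = 0} = d := by
  have hd1 : d ≠ 0 := by
    rintro rfl
    exact hd0 Nat.cast_zero
  unfold Geo.deg at hd
  split_ifs at hd with h
  · have hν := h.choose_spec
    set ν := h.choose with hνdef
    have : FiniteDimensional ν.fieldRange G.FF :=
      Module.finite_of_finrank_pos (by rw [hd]; exact Nat.pos_of_ne_zero hd1)
    have : Algebra.IsSeparable ν.fieldRange G.FF := by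
      apply isSeparable_of_finrank_ne_zero
      rw [hd, ← map_natCast (algebraMap K G.FF)]
      exact (map_ne_zero_iff _ (algebraMap K G.FF).injective).2 hd0
    obtain ⟨hfin, hle⟩ := card_torsion_le G n ν hν
    rw [← hd]
    exact le_antisymm hle (le_card_torsion G n ν hν hfin)
  · exact absurd hd.symm hd1

end Fermat.Agent.S26
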